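import Mathlib

set_option autoImplicit false

namespace Fermat.Agent.S11.KummerAbstract

open NumberField

section powers

variable {p : ℕ} [hp : Fact p.Prime] {K : Type*} [Field K] [NumberField K]
  [IsCyclotomicExtension {p} ℚ K]

/-- In the ring of integers of the `p`-th cyclotomic field, every `p`-th power is congruent
to a rational integer modulo `p`. -/
theorem exists_int_dvd_pow_sub (w : 𝓞 K) : ∃ m : ℤ, (p : 𝓞 K) ∣ w ^ p - m := by
  have hζ := IsCyclotomicExtension.zeta_spec p ℚ K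
  have htop : Algebra.adjoin ℤ {hζ.toInteger} = ⊤ := by
    rw [← hζ.integralPowerBasis_gen]
    exact hζ.integralPowerBasis.adjoin_gen_eq_top
  have hw : w ∈ Algebra.adjoin ℤ {hζ.toInteger} := htop ▸ Algebra.mem_top
  induction hw using Algebra.adjoin_induction with
  | mem x hx =>
    rw [Set.mem_singleton_iff] at hx
    refine ⟨1, ?_⟩
    have h1 : x ^ p = 1 := by
      rw [hx]
      exact hζ.toInteger_isPrimitiveRoot.pow_eq_one
    rw [h1]
    simp
  | algebraMap r =>
    refine ⟨r ^ p, ?_⟩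
    simp
  | add x y _ _ hx hy =>
    obtain ⟨a, ha⟩ := hx
    obtain ⟨b, hb⟩ := hy
    obtain ⟨r, hr⟩ := exists_add_pow_prime_eq hp.out x y
    refine ⟨a + b, ?_⟩
    have : (x + y) ^ p - ((a + b : ℤ) : 𝓞 K) = (x ^ p - a) + (y ^ p - b) + p * (x * y * r) := by
      rw [hr]; push_cast; ring
    rw [this]
    exact dvd_add (dvd_add ha hb) (dvd_mul_right _ _)
  | mul x y _ _ hx hy =>
    obtain ⟨a, ha⟩ := hx
    obtain ⟨b, hb⟩ := hy
    refine ⟨a * b, ?_⟩
    have : (x * y) ^ p - ((a * b : ℤ) : 𝓞 K) = (x ^ p - a) * y ^ p + a * (y ^ p - b) := by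
      push_cast; ring
    rw [this]
    exact dvd_add (dvd_mul_of_dvd_left ha _) (dvd_mul_of_dvd_right hb _)

omit hp [NumberField K] [IsCyclotomicExtension {p} ℚ K] in
/-- Being congruent to a rational integer modulo `p` is stable under products. -/
theorem cong_mul {a b : 𝓞 K} (ha : ∃ n : ℤ, (p : 𝓞 K) ∣ a - n) (hb : ∃ n : ℤ, (p : 𝓞 K) ∣ b - n) :
    ∃ n : ℤ, (p : 𝓞 K) ∣ a * b - n := by
  obtain ⟨m, hm⟩ := ha
  obtain ⟨n, hn⟩ := hb
  refine ⟨m * n, ?_⟩
  have : a * b - ((m * n : ℤ) : 𝓞 K) = (a - m) * b + m * (b - n) := by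
    push_cast; ring
  rw [this]
  exact dvd_add (Dvd.dvd.mul_right hm _) (Dvd.dvd.mul_left hn _)

/-- The unit rank of the `p`-th cyclotomic field is `(p - 3) / 2`. -/
theorem rank_add_one (hp2 : p ≠ 2) : NumberField.Units.rank K + 1 = (p - 1) / 2 := by
  have h3 : 2 < p := lt_of_le_of_ne hp.out.two_le (Ne.symm hp2)
  rw [NumberField.Units.rank, InfinitePlace.card_eq_nrRealPlaces_add_nrComplexPlaces,
    IsCyclotomicExtension.Rat.nrRealPlaces_eq_zero K h3,
    IsCyclotomicExtension.Rat.nrComplexPlaces_eq_totient_div_two p K, Nat.totient_prime hp.out]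
  omega

end powers

theorem span_eq_top_of_card_le {F V : Type*} [Field F] [AddCommGroup V] [Module F V]
    {ι : Type*} [Fintype ι] (gens : ι → V) (hgens : Submodule.span F (Set.range gens) = ⊤)
    {n : ℕ} (hn : 0 < n) (hcard : Fintype.card ι ≤ n) (v : Fin n → V)
    (hv : LinearIndependent F v) : Submodule.span F (Set.range v) = ⊤ := by
  have hfin : Module.Finite F V :=
    Module.finite_def.2 (Submodule.fg_def.2 ⟨Set.range gens, Set.finite_range _, hgens⟩)
  have h1 : Module.finrank F V ≤ Fintype.card ι := by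
    have := finrank_range_le_card (R := F) gens
    rwa [Set.finrank, hgens, finrank_top] at this
  have h2 : Fintype.card (Fin n) ≤ Module.finrank F V := hv.fintype_card_le_finrank
  have : Nonempty (Fin n) := ⟨⟨0, hn⟩⟩
  apply hv.span_eq_top_of_card_eq_finrank
  rw [Fintype.card_fin] at h2 ⊢
  omega

theorem exists_eq_prod_pow_mul_pow {G : Type*} [CommGroup G] {p : ℕ} [hp : Fact p.Prime]
    {ι : Type*} [Fintype ι] (gens : ι → G)
    (hgens : ∀ u : G, ∃ (a : ι → ℤ) (w : G), u = (∏ i, gens i ^ a i) * w ^ p)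
    {n : ℕ} (hn : 0 < n) (hcard : Fintype.card ι ≤ n) (e : Fin n → G)
    (hind : ∀ c : Fin n → ℕ, (∃ w : G, ∏ i, e i ^ c i = w ^ p) → ∀ i, p ∣ c i) (u : G) :
    ∃ (c : Fin n → ℕ) (w : G), u = (∏ i, e i ^ c i) * w ^ p := by
  classical
  let H : AddSubgroup (Additive G) := (nsmulAddMonoidHom (α := Additive G) p).range
  have hQ : ∀ x : Additive G ⧸ H, p • x = 0 := by
    intro x
    induction x using QuotientAddGroup.induction_on with
    | H a =>
      rw [← QuotientAddGroup.mk_nsmul, QuotientAddGroup.eq_zero_iff]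
      exact ⟨a, rfl⟩
  have inst : Module (ZMod p) (Additive G ⧸ H) := AddCommGroup.zmodModule hQ
  let π : Additive G →+ Additive G ⧸ H := QuotientAddGroup.mk' H
  have hπ_zero : ∀ a : G, π (Additive.ofMul a) = 0 ↔ ∃ w : G, a = w ^ p := by
    intro a
    rw [QuotientAddGroup.mk'_apply, QuotientAddGroup.eq_zero_iff]
    constructor
    · rintro ⟨w, hw⟩
      exact ⟨Additive.toMul w, (congrArg Additive.toMul hw).symm⟩
    · rintro ⟨w, rfl⟩
      exact ⟨Additive.ofMul w, rfl⟩
  -- the generators span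
  have hspan : Submodule.span (ZMod p) (Set.range fun i => π (Additive.ofMul (gens i))) =
      (⊤ : Submodule (ZMod p) (Additive G ⧸ H)) := by
    rw [eq_top_iff]
    intro x _
    induction x using QuotientAddGroup.induction_on with
    | H a =>
      obtain ⟨c, w, hw⟩ := hgens (Additive.toMul a)
      have h1 : ((a : Additive G) : Additive G ⧸ H) =
          ∑ i, c i • π (Additive.ofMul (gens i)) := by
        have h2 : a = ∑ i, c i • Additive.ofMul (gens i) + p • Additive.ofMul w := by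
          have := congrArg Additive.ofMul hw
          simpa [ofMul_prod] using this
        have h3 : π (p • Additive.ofMul w) = 0 := by
          rw [map_nsmul]; exact hQ _
        calc ((a : Additive G) : Additive G ⧸ H) = π a := rfl
          _ = π (∑ i, c i • Additive.ofMul (gens i)) + π (p • Additive.ofMul w) := by
              rw [← map_add, ← h2]
          _ = ∑ i, c i • π (Additive.ofMul (gens i)) := by
              rw [h3, add_zero, map_sum]
              simp
      rw [h1]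
      refine Submodule.sum_mem _ fun i _ => ?_
      exact zsmul_mem (Submodule.subset_span (Set.mem_range_self i)) _
  -- key computation
  have hkey : ∀ g : Fin n → ZMod p, ∑ i, g i • π (Additive.ofMul (e i)) =
      π (Additive.ofMul (∏ i, e i ^ (g i).val)) := by
    intro g
    rw [ofMul_prod, map_sum]
    refine Finset.sum_congr rfl fun i _ => ?_
    rw [ofMul_pow, map_nsmul, ← Nat.cast_smul_eq_nsmul (ZMod p), ZMod.natCast_zmod_val]
  have hli : LinearIndependent (ZMod p) fun i => π (Additive.ofMul (e i)) := by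
    rw [Fintype.linearIndependent_iff]
    intro g hg i
    rw [hkey g, hπ_zero] at hg
    have := hind (fun i => (g i).val) hg i
    rw [← ZMod.natCast_zmod_val (g i)]
    exact (ZMod.natCast_eq_zero_iff _ _).2 this
  have htop := span_eq_top_of_card_le _ hspan hn hcard _ hli
  have hu : π (Additive.ofMul u) ∈ Submodule.span (ZMod p)
      (Set.range fun i => π (Additive.ofMul (e i))) := htop ▸ Submodule.mem_top
  rw [Submodule.mem_span_range_iff_exists_fun] at hu
  obtain ⟨g, hg⟩ := hu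
  rw [hkey g] at hg
  have h0 : π (Additive.ofMul (u * (∏ i, e i ^ (g i).val)⁻¹)) = 0 := by
    rw [ofMul_mul, ofMul_inv, map_add, map_neg, hg, add_neg_cancel]
  obtain ⟨w, hw⟩ := (hπ_zero _).1 h0
  exact ⟨fun i => (g i).val, w, by rw [← hw, mul_comm u, mul_inv_cancel_left]⟩


/-- Abstract Kummer lemma: if `(p-1)/2` units are independent modulo `p` in the sense that a
product of powers congruent to an integer mod `p` has all exponents divisible by `p`, then every
unit congruent to an integer mod `p` is a `p`-th power. -/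
theorem kummer_of_independent {p : ℕ} [hp : Fact p.Prime] (hp2 : p ≠ 2) {K : Type*} [Field K]
    [NumberField K] [IsCyclotomicExtension {p} ℚ K]
    (e : Fin ((p - 1) / 2) → (𝓞 K)ˣ)
    (hind : ∀ c : Fin ((p - 1) / 2) → ℕ,
      (∃ n : ℤ, (p : 𝓞 K) ∣ ((∏ i, e i ^ c i : (𝓞 K)ˣ) : 𝓞 K) - n) → ∀ i, p ∣ c i)
    (u : (𝓞 K)ˣ) (hu : ∃ n : ℤ, (p : 𝓞 K) ∣ (u : 𝓞 K) - n) :
    ∃ v : (𝓞 K)ˣ, u = v ^ p := by
  have hp3 : 3 ≤ p := by have := hp.out.two_le; omega
  obtain ⟨t, ht⟩ := IsCyclic.exists_generator (α := Units.torsion K)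
  let gens : Option (Fin (Units.rank K)) → (𝓞 K)ˣ :=
    fun o => o.elim (t : (𝓞 K)ˣ) (Units.fundSystem K)
  have hgens : ∀ u : (𝓞 K)ˣ, ∃ (a : Option (Fin (Units.rank K)) → ℤ) (w : (𝓞 K)ˣ),
      u = (∏ i, gens i ^ a i) * w ^ p := by
    intro u
    obtain ⟨⟨ζ, a⟩, h, -⟩ := Units.exist_unique_eq_mul_prod K u
    obtain ⟨k, hk⟩ := Subgroup.mem_zpowers_iff.1 (ht ζ)
    refine ⟨fun o => o.elim k a, 1, ?_⟩
    rw [Fintype.prod_option, one_pow, mul_one]
    simp only [gens, Option.elim]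
    rw [h, ← hk]
    simp
  have hrank : Fintype.card (Option (Fin (Units.rank K))) ≤ (p - 1) / 2 := by
    rw [Fintype.card_option, Fintype.card_fin, Units.rank,
      InfinitePlace.card_eq_nrRealPlaces_add_nrComplexPlaces,
      IsCyclotomicExtension.Rat.nrRealPlaces_eq_zero (n := p) K (by omega),
      IsCyclotomicExtension.Rat.nrComplexPlaces_eq_totient_div_two p K,
      Nat.totient_prime hp.out]
    omega
  have hn : 0 < (p - 1) / 2 := by omega
  have hind' : ∀ c : Fin ((p - 1) / 2) → ℕ,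
      (∃ w : (𝓞 K)ˣ, ∏ i, e i ^ c i = w ^ p) → ∀ i, p ∣ c i := by
    rintro c ⟨w, hw⟩
    apply hind c
    obtain ⟨m, hm⟩ := exists_int_dvd_pow_sub (p := p) (w : 𝓞 K)
    exact ⟨m, by rw [hw]; simpa using hm⟩
  obtain ⟨c, w, hw⟩ := exists_eq_prod_pow_mul_pow gens hgens hn hrank e hind' u
  obtain ⟨n, hn'⟩ := hu
  obtain ⟨m, hm⟩ := exists_int_dvd_pow_sub (p := p) ((w⁻¹ : (𝓞 K)ˣ) : 𝓞 K)
  have hc : ∀ i, p ∣ c i := by
    apply hind c
    refine ⟨n * m, ?_⟩
    have h1 : ((∏ i, e i ^ c i : (𝓞 K)ˣ) : 𝓞 K) =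
        (u : 𝓞 K) * ((w⁻¹ : (𝓞 K)ˣ) : 𝓞 K) ^ p := by
      have h2 : (∏ i, e i ^ c i : (𝓞 K)ˣ) = u * (w⁻¹) ^ p := by
        rw [hw, mul_assoc, ← mul_pow, mul_inv_cancel, one_pow, mul_one]
      rw [h2]
      simp
    rw [h1]
    have h3 : (u : 𝓞 K) * ((w⁻¹ : (𝓞 K)ˣ) : 𝓞 K) ^ p - ((n * m : ℤ) : 𝓞 K) =
        ((u : 𝓞 K) - n) * ((w⁻¹ : (𝓞 K)ˣ) : 𝓞 K) ^ p +
          n * (((w⁻¹ : (𝓞 K)ˣ) : 𝓞 K) ^ p - m) := by
      push_cast; ring
    rw [h3]
    exact dvd_add (dvd_mul_of_dvd_left hn' _) (dvd_mul_of_dvd_right hm _)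
  choose d hd using hc
  refine ⟨(∏ i, e i ^ d i) * w, ?_⟩
  rw [hw, mul_pow, ← Finset.prod_pow]
  congr 1
  refine Finset.prod_congr rfl fun i _ => ?_
  rw [← pow_mul, hd i, mul_comm]

end Fermat.Agent.S11.KummerAbstract
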