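import Mathlib

set_option autoImplicit false

namespace Fermat.Agent.S11.CaseII

open Polynomial

section abstract

variable {R : Type*} [CommRing R] [IsDomain R]
variable {p : ℕ} {ζ : R}

lemma l_dvd_all (hp : p.Prime) (hζ : IsPrimitiveRoot ζ p) (hl : Prime (ζ - 1)) (hodd : Odd p)
    {x y : R} (h : (ζ - 1) ∣ x ^ p + y ^ p) :
    ∀ μ ∈ nthRootsFinset p (1 : R), (ζ - 1) ∣ x + μ * y := by
  have hprod := hζ.pow_add_pow_eq_prod_add_mul x y hodd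
  rw [hprod] at h
  obtain ⟨μ0, hμ0, hdvd⟩ := hl.exists_mem_finset_dvd h
  intro μ hμ
  have := hζ.sub_one_dvd_sub hp hμ hμ0
  have e : x + μ * y = (x + μ0 * y) + (μ - μ0) * y := by ring
  rw [e]
  exact dvd_add hdvd (Dvd.dvd.mul_right this y)

lemma descent_step_normalized [IsPrincipalIdealRing R] (hp : p.Prime) (hp2 : p ≠ 2)
    (hζ : IsPrimitiveRoot ζ p) (hl : Prime (ζ - 1))
    (hpl : (p : R) ∣ (ζ - 1) ^ (p - 1))
    (hcop : ∀ x : R, ¬ (ζ - 1) ∣ x → IsCoprime (p : R) x)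
    (hpow : ∀ α : R, ∃ n : ℤ, (p : R) ∣ α ^ p - n)
    (hkummer : ∀ u : Rˣ, (∃ n : ℤ, (p : R) ∣ (u : R) - n) → ∃ v : Rˣ, u = v ^ p)
    {m : ℕ} {x y z : R} {ε : Rˣ} (hy : ¬ (ζ - 1) ∣ y) (hz : ¬ (ζ - 1) ∣ z) (hxy : IsCoprime x y)
    (hsq : (ζ - 1) ^ 2 ∣ x + y)
    (h : x ^ p + y ^ p = ε * ((ζ - 1) ^ (m + 1) * z) ^ p) :
    ∃ m', m = m' + 1 ∧ ∃ (x' y' z' : R) (ε' : Rˣ), ¬ (ζ - 1) ∣ y' ∧ ¬ (ζ - 1) ∣ z' ∧
      IsCoprime x' y' ∧ x' ^ p + y' ^ p = ε' * ((ζ - 1) ^ (m' + 1) * z') ^ p := by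
  classical
  obtain ⟨l, hldef⟩ : ∃ l, l = ζ - 1 := ⟨_, rfl⟩
  rw [← hldef] at hl hpl hcop hy hz hsq h ⊢
  have hodd : Odd p := hp.odd_of_ne_two hp2
  have hl0 : l ≠ 0 := hl.ne_zero
  set S := nthRootsFinset p (1 : R) with hS
  have hdvd : l ∣ x ^ p + y ^ p := by
    rw [h]
    exact Dvd.dvd.mul_left
      (dvd_pow (Dvd.dvd.mul_right (dvd_pow_self l (Nat.succ_ne_zero m)) z) hp.ne_zero) _
  have hall : ∀ μ ∈ S, l ∣ x + μ * y := by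
    rw [hldef] at hl hdvd ⊢
    exact l_dvd_all hp hζ hl hodd hdvd
  have hunit : ∀ μ ∈ S, ∀ ν ∈ S, μ ≠ ν → ∃ u : Rˣ, l * u = μ - ν := by
    rw [hldef]
    exact fun μ hμ ν hν hne =>
      hζ.nthRootsFinset_pairwise_associated_sub_one_sub_of_prime hp hμ hν hne
  choose! A hA using hall
  have h1S : (1 : R) ∈ S := by rw [hS, mem_nthRootsFinset hp.pos]; exact one_pow p
  have hdiff : ∀ μ ∈ S, ∀ ν ∈ S, ∀ u : Rˣ, l * u = μ - ν →
      A μ - A ν = u * y ∧ ν * A μ - μ * A ν = - (u * x) := by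
    intro μ hμ ν hν u hu
    constructor
    · apply mul_left_cancel₀ hl0
      rw [mul_sub, ← hA μ hμ, ← hA ν hν, ← mul_assoc, hu]; ring
    · apply mul_left_cancel₀ hl0
      have : l * (ν * A μ - μ * A ν) = ν * (l * A μ) - μ * (l * A ν) := by ring
      rw [this, ← hA μ hμ, ← hA ν hν, mul_neg, ← mul_assoc, hu]; ring
  have hcopA : ∀ μ ∈ S, ∀ ν ∈ S, μ ≠ ν → IsCoprime (A μ) (A ν) := by
    intro μ hμ ν hν hne
    obtain ⟨u, hu⟩ := hunit μ hμ ν hν hne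
    obtain ⟨e1, e2⟩ := hdiff μ hμ ν hν u hu
    obtain ⟨a, b, hab⟩ := hxy
    refine ⟨(-a * ν + b) * (u⁻¹ : Rˣ), (a * μ - b) * (u⁻¹ : Rˣ), ?_⟩
    have e3 : (-a * ν + b) * (u⁻¹ : Rˣ) * A μ + (a * μ - b) * (u⁻¹ : Rˣ) * A ν =
        (u⁻¹ : Rˣ) * (-a * (ν * A μ - μ * A ν) + b * (A μ - A ν)) := by ring
    rw [e3, e1, e2]
    have e4 : ((u⁻¹ : Rˣ) : R) * (-a * -(u * x) + b * (u * y)) =
        (((u⁻¹ : Rˣ) : R) * u) * (a * x + b * y) := by ring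
    rw [e4, hab, Units.inv_mul, one_mul]
  have hprod : ∏ μ ∈ S, A μ = ε * (l ^ m * z) ^ p := by
    have e1 : x ^ p + y ^ p = ∏ μ ∈ S, (l * A μ) := by
      rw [hζ.pow_add_pow_eq_prod_add_mul x y hodd]
      exact Finset.prod_congr rfl (fun μ hμ => hA μ hμ)
    rw [Finset.prod_mul_distrib, Finset.prod_const, hζ.card_nthRootsFinset, h] at e1
    apply mul_left_cancel₀ (pow_ne_zero p hl0)
    rw [← e1]; ring
  have hA1 : l ∣ A 1 := by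
    have := hA 1 h1S
    rw [one_mul] at this
    rw [this, pow_two] at hsq
    exact (mul_dvd_mul_iff_left hl0).mp hsq
  have hAnd : ∀ μ ∈ S, μ ≠ 1 → ¬ l ∣ A μ := by
    intro μ hμ hne hd
    obtain ⟨u, hu⟩ := hunit μ hμ 1 h1S hne
    obtain ⟨e1, -⟩ := hdiff μ hμ 1 h1S u hu
    have : l ∣ (u : R) * y := by rw [← e1]; exact dvd_sub hd hA1
    exact hy ((Units.dvd_mul_left).mp this)
  set B := ∏ μ ∈ S.erase 1, A μ with hB
  have hAB : A 1 * B = ε * (l ^ m * z) ^ p := by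
    rw [hB, Finset.mul_prod_erase _ _ h1S, hprod]
  have hlB : ¬ l ∣ B := by
    rw [hB, hl.dvd_finsetProd_iff]
    push Not
    intro μ hμ
    exact hAnd μ (Finset.mem_of_mem_erase hμ) (Finset.ne_of_mem_erase hμ)
  obtain ⟨m', rfl⟩ : ∃ m', m = m' + 1 := by
    rcases m with _ | m'
    · exfalso
      have : l ∣ (ε : R) * (l ^ 0 * z) ^ p := by rw [← hAB]; exact Dvd.dvd.mul_right hA1 B
      rw [pow_zero, one_mul] at this
      exact hz (hl.dvd_of_dvd_pow ((Units.dvd_mul_left).mp this))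
    · exact ⟨m', rfl⟩
  have hpowdvd : l ^ ((m' + 1) * p) ∣ A 1 := by
    apply hl.pow_dvd_of_dvd_mul_right _ hlB
    rw [hAB, mul_pow, ← pow_mul]
    exact Dvd.dvd.mul_left (Dvd.dvd.mul_right (dvd_refl _) _) _
  obtain ⟨q1, hq1⟩ := hpowdvd
  have hq1B : q1 * B = ε * z ^ p := by
    apply mul_left_cancel₀ (pow_ne_zero ((m' + 1) * p) hl0)
    rw [← mul_assoc, ← hq1, hAB, mul_pow, ← pow_mul]; ring
  have hlq1 : ¬ l ∣ q1 := by
    intro hd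
    have : l ∣ (ε : R) * z ^ p := by rw [← hq1B]; exact Dvd.dvd.mul_right hd B
    exact hz (hl.dvd_of_dvd_pow ((Units.dvd_mul_left).mp this))
  have hcop1B : IsCoprime (A 1) B := by
    rw [hB]; apply IsCoprime.prod_right; intro μ hμ
    exact hcopA 1 h1S μ (Finset.mem_of_mem_erase hμ) (Finset.ne_of_mem_erase hμ).symm
  have hcopq1B : IsCoprime q1 B := by
    rw [hq1] at hcop1B; exact hcop1B.of_mul_left_right
  obtain ⟨ρ0, hρ0⟩ := exists_associated_pow_of_associated_pow_mul hcopq1B (c := z) (k := p)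
    (by rw [hq1B]; exact (associated_unit_mul_left _ _ ε.isUnit).symm)
  have hpth : ∀ μ ∈ S, ∃ ρ, Associated (ρ ^ p) (A μ) := by
    intro μ hμ
    have hc : IsCoprime (A μ) (∏ ν ∈ S.erase μ, A ν) := by
      apply IsCoprime.prod_right; intro ν hν
      exact hcopA μ hμ ν (Finset.mem_of_mem_erase hν) (Finset.ne_of_mem_erase hν).symm
    apply exists_associated_pow_of_associated_pow_mul hc (c := l ^ (m' + 1) * z) (k := p)
    rw [Finset.mul_prod_erase _ _ hμ, hprod]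
    exact (associated_unit_mul_left _ _ ε.isUnit).symm
  have hζS : ζ ∈ S := by rw [hS, mem_nthRootsFinset hp.pos]; exact hζ.pow_eq_one
  set ζ' := ζ ^ (p - 1) with hζ'
  have hζζ' : ζ * ζ' = 1 := by
    rw [hζ', ← pow_succ', Nat.sub_add_cancel hp.pos, hζ.pow_eq_one]
  have hζ'S : ζ' ∈ S := by
    rw [hS, mem_nthRootsFinset hp.pos, hζ', ← pow_mul, mul_comm, pow_mul, hζ.pow_eq_one, one_pow]
  have hζne1 : ζ ≠ 1 := hζ.ne_one hp.one_lt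
  have hζ'ne1 : ζ' ≠ 1 := by
    intro h1; rw [h1, mul_one] at hζζ'; exact hζne1 hζζ'
  have hζneζ' : ζ ≠ ζ' := by
    intro h1
    rw [← h1, ← pow_two] at hζζ'
    have := (hζ.pow_eq_one_iff_dvd 2).mp hζζ'
    have := Nat.le_of_dvd (by norm_num) this
    have := hp.two_le
    omega
  obtain ⟨ρ1, η1, hρ1⟩ := hpth ζ hζS
  obtain ⟨ρ2, η2, hρ2⟩ := hpth ζ' hζ'S
  obtain ⟨η0, hη0⟩ := hρ0
  have hrel : A ζ + ζ * A ζ' = (1 + ζ) * A 1 := by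
    apply mul_left_cancel₀ hl0
    have e : l * (A ζ + ζ * A ζ') = l * A ζ + ζ * (l * A ζ') := by ring
    have e' : l * ((1 + ζ) * A 1) = (1 + ζ) * (l * A 1) := by ring
    rw [e, e', ← hA ζ hζS, ← hA ζ' hζ'S, ← hA 1 h1S]
    have : x + ζ * y + ζ * (x + ζ' * y) = x + ζ * y + ζ * x + (ζ * ζ') * y := by ring
    rw [this, hζζ']; ring
  have hζu : IsUnit ζ := hζ.isUnit hp.ne_zero
  have h1ζu : IsUnit (1 + ζ) := by
    have := hζ.geom_sum_isUnit hp.two_le (j := 2)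
      (by rw [Nat.coprime_comm]; exact (Nat.coprime_primes hp Nat.prime_two).mpr hp2)
    simpa [Finset.sum_range_succ] using this
  obtain ⟨ζu, hζu'⟩ := hζu
  obtain ⟨τ, hτ⟩ := h1ζu
  have hmain : ρ1 ^ p + ((ζu * η2 * η1⁻¹ : Rˣ) : R) * ρ2 ^ p =
      ((τ * η0 * η1⁻¹ : Rˣ) : R) * (l ^ (m' + 1) * ρ0) ^ p := by
    have e := hrel
    rw [← hρ1, ← hρ2, hq1, ← hη0, ← hτ, ← hζu'] at e
    have hinv : ((η1⁻¹ : Rˣ) : R) * η1 = 1 := Units.inv_mul η1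
    calc ρ1 ^ p + ((ζu * η2 * η1⁻¹ : Rˣ) : R) * ρ2 ^ p
        = (η1⁻¹ : Rˣ) * (ρ1 ^ p * η1 + ζu * (ρ2 ^ p * η2)) := by
          push_cast; linear_combination (- ρ1 ^ p) * hinv
      _ = (η1⁻¹ : Rˣ) * (τ * (l ^ ((m' + 1) * p) * (ρ0 ^ p * η0))) := by rw [e]
      _ = _ := by push_cast; rw [mul_pow, ← pow_mul]; ring
  set η : Rˣ := ζu * η2 * η1⁻¹ with hη
  set ε' : Rˣ := τ * η0 * η1⁻¹ with hε'
  have hlρ2 : ¬ l ∣ ρ2 := by
    intro hd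
    apply hAnd ζ' hζ'S hζ'ne1
    rw [← hρ2]
    exact Dvd.dvd.mul_right (dvd_pow hd hp.ne_zero) _
  have hlρ0 : ¬ l ∣ ρ0 := by
    intro hd; apply hlq1; rw [← hη0]; exact Dvd.dvd.mul_right (dvd_pow hd hp.ne_zero) _
  have hpdvd : (p : R) ∣ (l ^ (m' + 1) * ρ0) ^ p := by
    rw [mul_pow, ← pow_mul]
    apply Dvd.dvd.mul_right
    exact hpl.trans (pow_dvd_pow l ((Nat.sub_le p 1).trans (Nat.le_mul_of_pos_left p (Nat.succ_pos m'))))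
  have hpdvd2 : (p : R) ∣ ρ1 ^ p + η * ρ2 ^ p := by rw [hmain]; exact Dvd.dvd.mul_left hpdvd _
  obtain ⟨s, t, hst⟩ := hcop ρ2 hlρ2
  obtain ⟨n, hn⟩ := hpow (t * ρ1)
  have hcong : ∃ n : ℤ, (p : R) ∣ (η : R) - n := by
    refine ⟨-n, ?_⟩
    have h1 : (p : R) ∣ 1 - (t * ρ2) ^ p := by
      have : (1 : R) - (t * ρ2) ^ p = (s * p + t * ρ2) ^ p - (t * ρ2) ^ p := by
        rw [hst, one_pow]
      rw [this]
      have := sub_dvd_pow_sub_pow (s * p + t * ρ2) (t * ρ2) p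
      refine dvd_trans ?_ this
      exact ⟨s, by ring⟩
    have e : (η : R) - ((-n : ℤ) : R) = η * (1 - (t * ρ2) ^ p) + t ^ p * (ρ1 ^ p + η * ρ2 ^ p)
        - ((t * ρ1) ^ p - n) := by
      push_cast; ring
    rw [e]
    exact dvd_sub (dvd_add (Dvd.dvd.mul_left h1 _) (Dvd.dvd.mul_left hpdvd2 _)) hn
  obtain ⟨ν, hν⟩ := hkummer η hcong
  refine ⟨m', rfl, ρ1, ν * ρ2, ρ0, ε', ?_, hlρ0, ?_, ?_⟩
  · intro hd; exact hlρ2 ((Units.dvd_mul_left).mp hd)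
  · have hc := hcopA ζ hζS ζ' hζ'S hζneζ'
    rw [← hρ1, ← hρ2] at hc
    have hc2 : IsCoprime (ρ1 ^ p) (ρ2 ^ p) := (hc.of_mul_left_left).of_mul_right_left
    have hc3 : IsCoprime ρ1 ρ2 := (IsCoprime.pow_iff hp.pos hp.pos).mp hc2
    exact (isCoprime_mul_unit_left_right ν.isUnit ρ1 ρ2).mpr hc3
  · rw [mul_pow, ← Units.val_pow_eq_pow_val, ← hν, hmain]

lemma exists_sq_dvd (hp : p.Prime) (hζ : IsPrimitiveRoot ζ p) (hl : Prime (ζ - 1))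
    (hcard : Nat.card (R ⧸ Ideal.span {ζ - 1}) = p)
    {x y : R} (hy : ¬ (ζ - 1) ∣ y)
    (hall : ∀ μ ∈ nthRootsFinset p (1 : R), (ζ - 1) ∣ x + μ * y) :
    ∃ μ ∈ nthRootsFinset p (1 : R), (ζ - 1) ^ 2 ∣ x + μ * y := by
  classical
  by_contra hcon
  push Not at hcon
  have : Finite (R ⧸ Ideal.span {ζ - 1}) :=
    Nat.finite_of_card_ne_zero (by rw [hcard]; exact hp.ne_zero)
  let _ := Fintype.ofFinite (R ⧸ Ideal.span {ζ - 1})
  choose! q hq using hall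
  let f : R → R ⧸ Ideal.span {ζ - 1} := fun μ => Ideal.Quotient.mk _ (q μ)
  have hmaps : ∀ μ ∈ nthRootsFinset p (1:R),
      f μ ∈ (Finset.univ.erase (0 : R ⧸ Ideal.span {ζ - 1})) := by
    intro μ hμ
    rw [Finset.mem_erase]
    refine ⟨?_, Finset.mem_univ _⟩
    intro h0
    rw [Ideal.Quotient.eq_zero_iff_mem, Ideal.mem_span_singleton] at h0
    apply hcon μ hμ
    rw [hq μ hμ, pow_two]
    exact mul_dvd_mul_left _ h0
  have hlt : (Finset.univ.erase (0 : R ⧸ Ideal.span {ζ - 1})).card <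
      (nthRootsFinset p (1:R)).card := by
    rw [Finset.card_erase_of_mem (Finset.mem_univ _), Finset.card_univ,
      ← Nat.card_eq_fintype_card, hcard, hζ.card_nthRootsFinset]
    exact Nat.sub_lt hp.pos one_pos
  obtain ⟨μ, hμ, ν, hν, hne, hf⟩ := Finset.exists_ne_map_eq_of_card_lt_of_maps_to hlt hmaps
  rw [Ideal.Quotient.eq, Ideal.mem_span_singleton] at hf
  obtain ⟨u, hu⟩ := hζ.nthRootsFinset_pairwise_associated_sub_one_sub_of_prime hp hμ hν hne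
  apply hy
  have e : (ζ - 1) * (q μ - q ν) = (ζ - 1) * (u * y) := by
    rw [mul_sub, ← hq μ hμ, ← hq ν hν, ← mul_assoc, hu]; ring
  have e2 := mul_left_cancel₀ hl.ne_zero e
  rw [e2] at hf
  exact (Units.dvd_mul_left).mp hf

lemma descent_step [IsPrincipalIdealRing R] (hp : p.Prime) (hp2 : p ≠ 2)
    (hζ : IsPrimitiveRoot ζ p) (hl : Prime (ζ - 1))
    (hcard : Nat.card (R ⧸ Ideal.span {ζ - 1}) = p)
    (hpl : (p : R) ∣ (ζ - 1) ^ (p - 1))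
    (hcop : ∀ x : R, ¬ (ζ - 1) ∣ x → IsCoprime (p : R) x)
    (hpow : ∀ α : R, ∃ n : ℤ, (p : R) ∣ α ^ p - n)
    (hkummer : ∀ u : Rˣ, (∃ n : ℤ, (p : R) ∣ (u : R) - n) → ∃ v : Rˣ, u = v ^ p)
    {m : ℕ} {x y z : R} {ε : Rˣ} (hy : ¬ (ζ - 1) ∣ y) (hz : ¬ (ζ - 1) ∣ z) (hxy : IsCoprime x y)
    (h : x ^ p + y ^ p = ε * ((ζ - 1) ^ (m + 1) * z) ^ p) :
    ∃ m', m = m' + 1 ∧ ∃ (x' y' z' : R) (ε' : Rˣ), ¬ (ζ - 1) ∣ y' ∧ ¬ (ζ - 1) ∣ z' ∧
      IsCoprime x' y' ∧ x' ^ p + y' ^ p = ε' * ((ζ - 1) ^ (m' + 1) * z') ^ p := by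
  have hodd : Odd p := hp.odd_of_ne_two hp2
  have hdvd : (ζ - 1) ∣ x ^ p + y ^ p := by
    rw [h]
    exact Dvd.dvd.mul_left
      (dvd_pow (Dvd.dvd.mul_right (dvd_pow_self _ (Nat.succ_ne_zero m)) z) hp.ne_zero) _
  have hall := l_dvd_all hp hζ hl hodd hdvd
  obtain ⟨μ1, hμ1, hsq⟩ := exists_sq_dvd hp hζ hl hcard hy hall
  have hμ1p : μ1 ^ p = 1 := (mem_nthRootsFinset hp.pos 1).1 hμ1
  have hμ1u : IsUnit μ1 := IsUnit.of_pow_eq_one hμ1p hp.ne_zero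
  have hy1l : ¬ (ζ - 1) ∣ μ1 * y := fun hd => hy ((hμ1u.dvd_mul_left).mp hd)
  have hxy1 : IsCoprime x (μ1 * y) := (isCoprime_mul_unit_left_right hμ1u x y).mpr hxy
  have h1 : x ^ p + (μ1 * y) ^ p = ε * ((ζ - 1) ^ (m + 1) * z) ^ p := by
    rw [mul_pow, hμ1p, one_mul, h]
  exact descent_step_normalized hp hp2 hζ hl hpl hcop hpow hkummer hy1l hz hxy1 hsq h1

theorem no_solution [IsPrincipalIdealRing R] (hp : p.Prime) (hp2 : p ≠ 2)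
    (hζ : IsPrimitiveRoot ζ p) (hl : Prime (ζ - 1))
    (hcard : Nat.card (R ⧸ Ideal.span {ζ - 1}) = p)
    (hpl : (p : R) ∣ (ζ - 1) ^ (p - 1))
    (hcop : ∀ x : R, ¬ (ζ - 1) ∣ x → IsCoprime (p : R) x)
    (hpow : ∀ α : R, ∃ n : ℤ, (p : R) ∣ α ^ p - n)
    (hkummer : ∀ u : Rˣ, (∃ n : ℤ, (p : R) ∣ (u : R) - n) → ∃ v : Rˣ, u = v ^ p)
    (m : ℕ) : ∀ (x y z : R) (ε : Rˣ), ¬ (ζ - 1) ∣ y → ¬ (ζ - 1) ∣ z → IsCoprime x y →
      x ^ p + y ^ p ≠ ε * ((ζ - 1) ^ (m + 1) * z) ^ p := by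
  induction m with
  | zero =>
    intro x y z ε hy hz hxy h
    obtain ⟨m', hm', -⟩ := descent_step hp hp2 hζ hl hcard hpl hcop hpow hkummer hy hz hxy h
    omega
  | succ m ih =>
    intro x y z ε hy hz hxy h
    obtain ⟨m', hm', x', y', z', ε', hy', hz', hxy', h'⟩ :=
      descent_step hp hp2 hζ hl hcard hpl hcop hpow hkummer hy hz hxy h
    obtain rfl : m' = m := by omega
    exact ih x' y' z' ε' hy' hz' hxy' h'

end abstract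

section cyclotomic

open NumberField

variable {p : ℕ} [hp : Fact p.Prime] {K : Type*} [Field K] [NumberField K]
  [IsCyclotomicExtension {p} ℚ K]

lemma exists_int_sub_dvd {ζ : K} (hζ : IsPrimitiveRoot ζ p) (α : 𝓞 K) :
    ∃ n : ℤ, (hζ.toInteger - 1) ∣ α - n := by
  have htop := IsCyclotomicExtension.Rat.adjoin_singleton_eq_top hζ
  have hmem : α ∈ Algebra.adjoin ℤ {hζ.toInteger} := by rw [htop]; exact Algebra.mem_top
  induction hmem using Algebra.adjoin_induction with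
  | mem x hx =>
    rw [Set.mem_singleton_iff] at hx
    exact ⟨1, by rw [hx]; simp⟩
  | algebraMap r => exact ⟨r, by simp⟩
  | add x y _ _ hx hy =>
    obtain ⟨a, ha⟩ := hx
    obtain ⟨b, hb⟩ := hy
    refine ⟨a + b, ?_⟩
    have : x + y - ((a + b : ℤ) : 𝓞 K) = (x - a) + (y - b) := by push_cast; ring
    rw [this]
    exact dvd_add ha hb
  | mul x y _ _ hx hy =>
    obtain ⟨a, ha⟩ := hx
    obtain ⟨b, hb⟩ := hy
    refine ⟨a * b, ?_⟩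
    have : x * y - ((a * b : ℤ) : 𝓞 K) = (x - a) * y + a * (y - b) := by push_cast; ring
    rw [this]
    exact dvd_add (Dvd.dvd.mul_right ha _) (Dvd.dvd.mul_left hb _)

lemma exists_int_pow_sub_dvd {ζ : K} (hζ : IsPrimitiveRoot ζ p) (α : 𝓞 K) :
    ∃ n : ℤ, (p : 𝓞 K) ∣ α ^ p - n := by
  obtain ⟨n, β, hβ⟩ := exists_int_sub_dvd hζ α
  have hpl : (p : 𝓞 K) ∣ (hζ.toInteger - 1) ^ p := by
    have h1 := (IsCyclotomicExtension.Rat.associated_zeta_sub_one_pow_prime p hζ).symm.dvd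
    exact h1.trans (pow_dvd_pow _ (Nat.sub_le p 1))
  generalize hζ.toInteger - 1 = l at hβ hpl
  have hα : α = n + l * β := by rw [← hβ]; ring
  obtain ⟨r, hr⟩ := exists_add_pow_prime_eq hp.out (n : 𝓞 K) (l * β)
  refine ⟨n ^ p, ?_⟩
  have e : α ^ p - ((n ^ p : ℤ) : 𝓞 K) = l ^ p * β ^ p +
      (p : 𝓞 K) * (n * (l * β) * r) := by
    rw [hα, hr]; push_cast; ring
  rw [e]
  exact dvd_add (Dvd.dvd.mul_right hpl _) (Dvd.dvd.mul_right (dvd_refl _) _)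

theorem caseII_aux (hp2 : p ≠ 2)
    (hpid : IsPrincipalIdealRing (𝓞 K))
    (hkummer : ∀ u : (𝓞 K)ˣ, (∃ n : ℤ, (p : 𝓞 K) ∣ (u : 𝓞 K) - n) → ∃ v : (𝓞 K)ˣ, u = v ^ p)
    {ζ : K} (hζ : IsPrimitiveRoot ζ p)
    (m : ℕ) (x y z : 𝓞 K) (ε : (𝓞 K)ˣ) (hy : ¬ (hζ.toInteger - 1) ∣ y)
    (hz : ¬ (hζ.toInteger - 1) ∣ z) (hxy : IsCoprime x y) :
    x ^ p + y ^ p ≠ ε * ((hζ.toInteger - 1) ^ (m + 1) * z) ^ p := by
  have hcard : Nat.card (𝓞 K ⧸ Ideal.span {hζ.toInteger - 1}) = p := by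
    rw [hζ.card_quotient_toInteger_sub_one, hζ.norm_toInteger_sub_one_of_prime_ne_two' hp2]
    simp
  exact no_solution hp.out hp2 hζ.toInteger_isPrimitiveRoot hζ.zeta_sub_one_prime' hcard
    (IsCyclotomicExtension.Rat.associated_zeta_sub_one_pow_prime p hζ).symm.dvd
    (fun x hx => IsCyclotomicExtension.Rat.isCoprime_of_not_zeta_sub_one_dvd p hζ hx)
    (exists_int_pow_sub_dvd hζ) hkummer m x y z ε hy hz hxy

theorem caseII (hp2 : p ≠ 2)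
    (hpid : IsPrincipalIdealRing (𝓞 K))
    (hkummer : ∀ u : (𝓞 K)ˣ, (∃ n : ℤ, (p : 𝓞 K) ∣ (u : 𝓞 K) - n) → ∃ v : (𝓞 K)ˣ, u = v ^ p)
    (a b c : ℤ) (hc : c ≠ 0) (_ha : ¬ (p : ℤ) ∣ a) (hb : ¬ (p : ℤ) ∣ b) (hpc : (p : ℤ) ∣ c)
    (hab : IsCoprime a b) : a ^ p + b ^ p ≠ c ^ p := by
  intro h
  have hζ := IsCyclotomicExtension.zeta_spec p ℚ K
  have hl := hζ.zeta_sub_one_prime'
  have hc0 : (c : 𝓞 K) ≠ 0 := by exact_mod_cast hc
  have hfin : FiniteMultiplicity (hζ.toInteger - 1) (c : 𝓞 K) :=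
    .of_not_isUnit hl.not_isUnit hc0
  obtain ⟨z, hz, hlz⟩ := hfin.exists_eq_pow_mul_and_not_dvd
  have hlc : (hζ.toInteger - 1) ∣ (c : 𝓞 K) :=
    (IsCyclotomicExtension.Rat.zeta_sub_one_dvd_intCast_iff' p hζ).mpr hpc
  have hlb : ¬ (hζ.toInteger - 1) ∣ (b : 𝓞 K) := fun hd =>
    hb ((IsCyclotomicExtension.Rat.zeta_sub_one_dvd_intCast_iff' p hζ).mp hd)
  obtain ⟨m, hm⟩ : ∃ m, multiplicity (hζ.toInteger - 1) (c : 𝓞 K) = m + 1 := by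
    rcases hmul : multiplicity (hζ.toInteger - 1) (c : 𝓞 K) with _ | m
    · exfalso
      rw [hmul, pow_zero, one_mul] at hz
      exact hlz (hz ▸ hlc)
    · exact ⟨m, rfl⟩
  rw [hm] at hz
  refine caseII_aux hp2 hpid hkummer hζ m (a : 𝓞 K) (b : 𝓞 K) z 1 hlb hlz
    (IsCoprime.intCast hab) ?_
  rw [Units.val_one, one_mul, ← hz]
  exact_mod_cast h

end cyclotomic

end Fermat.Agent.S11.CaseII
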