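import Mathlib
import Fermat.Agent.S11.CaseII

set_option autoImplicit false

namespace Fermat.Agent.S11.Assembly

open NumberField

/-- Fermat's Last Theorem for a prime exponent `p ≠ 2`, assembled from: the ring of integers of
the `p`-th cyclotomic field is a PID, Kummer's lemma for `p`, and the first case. -/
theorem flt_of_parts {p : ℕ} [hp : Fact p.Prime] (hp2 : p ≠ 2) {K : Type*} [Field K]
    [NumberField K] [IsCyclotomicExtension {p} ℚ K]
    (hpid : IsPrincipalIdealRing (𝓞 K))
    (hkummer : ∀ u : (𝓞 K)ˣ, (∃ n : ℤ, (p : 𝓞 K) ∣ (u : 𝓞 K) - n) → ∃ v : (𝓞 K)ˣ, u = v ^ p)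
    (hcaseI : ∀ a b c : ℤ, IsCoprime a b → a ^ p + b ^ p = c ^ p → (p : ℤ) ∣ a * b * c) :
    FermatLastTheoremWith ℤ p := by
  have hpZ : Prime (p : ℤ) := Nat.prime_iff_prime_int.mp hp.out
  have hodd : Odd p := hp.out.odd_of_ne_two hp2
  refine fermatLastTheoremWith_of_fermatLastTheoremWith_coprime (fun a b c ha hb hc hgcd hF => ?_)
  have hF0 : a ^ p + b ^ p + (-c) ^ p = 0 := by rw [hodd.neg_pow]; linarith
  have hab : IsCoprime a b := by
    refine isCoprime_of_gcd_eq_one_of_FLT ?_ hF0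
    rw [← hgcd]
    simp only [Finset.gcd_insert, Finset.gcd_singleton, id_eq, ← Int.abs_eq_normalize, abs_neg]
  have hac : IsCoprime a c := by
    have h3 : IsCoprime a (b ^ p + a * a ^ (p - 1)) := (hab.pow_right).add_mul_left_right _
    have h4 : b ^ p + a * a ^ (p - 1) = c ^ p := by
      rw [← pow_succ', Nat.sub_add_cancel hp.out.one_le, add_comm]; exact hF
    rw [h4] at h3
    exact (IsCoprime.pow_right_iff hp.out.pos).mp h3
  have hbc : IsCoprime b c := by
    have h3 : IsCoprime b (a ^ p + b * b ^ (p - 1)) := (hab.symm.pow_right).add_mul_left_right _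
    have h4 : a ^ p + b * b ^ (p - 1) = c ^ p := by
      rw [← pow_succ', Nat.sub_add_cancel hp.out.one_le]; exact hF
    rw [h4] at h3
    exact (IsCoprime.pow_right_iff hp.out.pos).mp h3
  have hnd : ∀ {x y : ℤ}, IsCoprime x y → (p : ℤ) ∣ x → ¬ (p : ℤ) ∣ y := by
    intro x y hxy hx hy
    exact hpZ.not_isUnit (hxy.isUnit_of_dvd' hx hy)
  have h1 := hcaseI a b c hab hF
  rcases hpZ.dvd_or_dvd h1 with h2 | hpc
  · rcases hpZ.dvd_or_dvd h2 with hpa | hpb
    · refine CaseII.caseII hp2 hpid hkummer c (-b) a ha (fun h => hnd hac hpa h)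
        (fun h => hnd hab hpa (dvd_neg.mp h)) hpa hbc.symm.neg_right ?_
      rw [hodd.neg_pow]; linarith
    · refine CaseII.caseII hp2 hpid hkummer c (-a) b hb (fun h => hnd hbc hpb h)
        (fun h => hnd hab.symm hpb (dvd_neg.mp h)) hpb hac.symm.neg_right ?_
      rw [hodd.neg_pow]; linarith
  · exact CaseII.caseII hp2 hpid hkummer a b c hc (fun h => hnd hac.symm hpc h)
      (fun h => hnd hbc.symm hpc h) hpc hab hF

end Fermat.Agent.S11.Assembly
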