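import Mathlib

set_option autoImplicit false

namespace Fermat.Agent.S11.KummerElevenCore

open Polynomial

/-! ### A tiny verified list arithmetic for polynomials over `ZMod 11` -/

/-- The polynomial with the given list of coefficients (constant term first). -/
noncomputable def ofL : List (ZMod 11) → (ZMod 11)[X]
  | [] => 0
  | a :: l => C a + X * ofL l

def addL : List (ZMod 11) → List (ZMod 11) → List (ZMod 11)
  | [], m => m
  | a :: l, [] => a :: l
  | a :: l, b :: m => (a + b) :: addL l m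

def smulL (c : ZMod 11) (l : List (ZMod 11)) : List (ZMod 11) := l.map (c * ·)

def mulL : List (ZMod 11) → List (ZMod 11) → List (ZMod 11)
  | [], _ => []
  | a :: l, m => addL (smulL a m) (0 :: mulL l m)

def derivL : List (ZMod 11) → List (ZMod 11)
  | [] => []
  | _ :: l => addL l (0 :: derivL l)

theorem ofL_addL (l m : List (ZMod 11)) : ofL (addL l m) = ofL l + ofL m := by
  induction l generalizing m with
  | nil => simp [addL, ofL]
  | cons a l ih =>
    cases m with
    | nil => simp [addL, ofL]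
    | cons b m =>
      simp only [addL, ofL, ih, C_add]
      ring

theorem ofL_smulL (c : ZMod 11) (l : List (ZMod 11)) : ofL (smulL c l) = C c * ofL l := by
  induction l with
  | nil => simp [smulL, ofL]
  | cons a l ih =>
    have : smulL c (a :: l) = (c * a) :: smulL c l := rfl
    rw [this]
    simp only [ofL, ih, C_mul]
    ring

theorem ofL_mulL (l m : List (ZMod 11)) : ofL (mulL l m) = ofL l * ofL m := by
  induction l with
  | nil => simp [mulL, ofL]
  | cons a l ih =>
    simp only [mulL, ofL, ofL_addL, ofL_smulL, ih, C_0]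
    ring

theorem ofL_derivL (l : List (ZMod 11)) : ofL (derivL l) = derivative (ofL l) := by
  induction l with
  | nil => simp [derivL, ofL]
  | cons a l ih =>
    simp only [derivL, ofL, ofL_addL, ih, C_0, derivative_add, derivative_C, derivative_mul,
      derivative_X]
    ring

theorem coeff_ofL (l : List (ZMod 11)) (n : ℕ) : (ofL l).coeff n = l.getD n 0 := by
  induction l generalizing n with
  | nil => simp [ofL]
  | cons a l ih =>
    cases n with
    | zero => simp [ofL]
    | succ n => simp [ofL, ih, coeff_C_succ]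


/-! ### The ring `F_11[X]/(X^10)` and the reduction map from `𝓞 K` -/

/-- The ring `F_11[X]/(X^10)`. -/
abbrev B : Type := (ZMod 11)[X] ⧸ Ideal.span {(X : (ZMod 11)[X]) ^ 10}

/-- The quotient map. -/
noncomputable abbrev mkB : (ZMod 11)[X] →+* B := Ideal.Quotient.mk _

theorem eleven_eq_zero : (11 : (ZMod 11)[X]) = 0 := by
  have h : (11 : ZMod 11) = 0 := by decide
  have h2 : (11 : (ZMod 11)[X]) = C (11 : ZMod 11) := (map_ofNat C 11).symm
  rw [h2, h, C_0]

theorem geom_sum_eq : ∑ i ∈ Finset.range 11, (1 + X : (ZMod 11)[X]) ^ i =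
    X ^ 10 + 11 * (1 + 5 * X + 15 * X ^ 2 + 30 * X ^ 3 + 42 * X ^ 4 + 42 * X ^ 5 + 30 * X ^ 6
      + 15 * X ^ 7 + 5 * X ^ 8 + X ^ 9) := by
  simp only [Finset.sum_range_succ, Finset.sum_range_zero]
  ring

theorem mkB_geom_sum : ∑ i ∈ Finset.range 11, (mkB (1 + X)) ^ i = 0 := by
  have h1 : ∑ i ∈ Finset.range 11, (mkB (1 + X)) ^ i =
      mkB (∑ i ∈ Finset.range 11, (1 + X : (ZMod 11)[X]) ^ i) := by
    simp only [map_sum, map_pow]
  rw [h1, geom_sum_eq, eleven_eq_zero, zero_mul, add_zero]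
  exact Ideal.Quotient.eq_zero_iff_mem.mpr (Ideal.subset_span rfl)

open NumberField

variable {K : Type*} [Field K] [NumberField K] [IsCyclotomicExtension {11} ℚ K]

/-- The chosen primitive `11`-th root of unity in `𝓞 K`. -/
noncomputable def zeta' : 𝓞 K := (IsCyclotomicExtension.zeta_spec 11 ℚ K).toInteger

theorem zeta'_prim : IsPrimitiveRoot (zeta' (K := K)) 11 :=
  (IsCyclotomicExtension.zeta_spec 11 ℚ K).toInteger_isPrimitiveRoot

/-- The reduction map `𝓞 K → F_11[X]/(X^10)` sending `ζ` to `1 + X`. -/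
noncomputable def psi : 𝓞 K →ₐ[ℤ] B :=
  (IsCyclotomicExtension.zeta_spec 11 ℚ K).integralPowerBasis.lift (mkB (1 + X)) (by
    have : Fact (Nat.Prime 11) := ⟨by norm_num⟩
    rw [IsPrimitiveRoot.integralPowerBasis_gen]
    have h := cyclotomic_eq_minpoly (IsCyclotomicExtension.zeta_spec 11 ℚ K) (by norm_num)
    have h2 := minpoly.algebraMap_eq (A := ℤ) (FaithfulSMul.algebraMap_injective (𝓞 K) K)
      (IsCyclotomicExtension.zeta_spec 11 ℚ K).toInteger
    rw [← h2]
    have h3 : algebraMap (𝓞 K) K (IsCyclotomicExtension.zeta_spec 11 ℚ K).toInteger =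
        IsCyclotomicExtension.zeta 11 ℚ K := rfl
    rw [h3, ← h, cyclotomic_prime ℤ 11]
    simp only [map_sum, map_pow, aeval_X]
    exact mkB_geom_sum)

theorem psi_zeta' : psi (zeta' (K := K)) = mkB (1 + X) := by
  have h := (IsCyclotomicExtension.zeta_spec 11 ℚ K).integralPowerBasis.lift_gen (mkB (1 + X))
  unfold psi zeta'
  rw [← IsPrimitiveRoot.integralPowerBasis_gen]
  exact h _


/-! ### The five units -/

/-- The underlying elements `ζ, 1+ζ, 1+ζ+ζ², …` of the five units. -/
noncomputable def elt (i : Fin 5) : 𝓞 K :=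
  if i = 0 then zeta' else ∑ j ∈ Finset.range (i.val + 1), zeta' ^ j

theorem elt_isUnit (i : Fin 5) : IsUnit (elt (K := K) i) := by
  unfold elt
  split_ifs with h
  · exact zeta'_prim.isUnit (by norm_num)
  · refine zeta'_prim.geom_sum_isUnit (by norm_num) ?_
    exact ((Nat.Prime.coprime_iff_not_dvd (by norm_num : Nat.Prime 11)).mpr
      (Nat.not_dvd_of_pos_of_lt (by omega) (by omega))).symm

/-- The five units `ζ, 1+ζ, 1+ζ+ζ², 1+ζ+ζ²+ζ³, 1+ζ+ζ²+ζ³+ζ⁴`. -/
noncomputable def e (i : Fin 5) : (𝓞 K)ˣ := (elt_isUnit i).unit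

theorem coe_e (i : Fin 5) : ((e i : (𝓞 K)ˣ) : 𝓞 K) = elt i := rfl

/-- Coefficient lists of the images of the five units. -/
def pl : Fin 5 → List (ZMod 11) :=
  ![[1, 1], [2, 1], [3, 3, 1], [4, 6, 4, 1], [5, 10, 10, 5, 1]]

theorem pl_key (i : Fin 5) :
    (if i = 0 then (1 + X : (ZMod 11)[X])
      else ∑ j ∈ Finset.range (i.val + 1), (1 + X) ^ j) = ofL (pl i) := by
  fin_cases i <;> simp [pl, ofL, Finset.sum_range_succ, C_ofNat] <;> ring

theorem psi_elt (i : Fin 5) : psi (elt (K := K) i) = mkB (ofL (pl i)) := by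
  rw [← pl_key i]
  unfold elt
  split_ifs with h
  · exact psi_zeta'
  · simp only [map_sum, map_pow, psi_zeta']

/-! ### Logarithmic derivatives -/

section logder

variable {R : Type*} [CommRing R]

theorem logder_pow {p P N : R[X]} (h : derivative p * P = p * N) (n : ℕ) :
    derivative (p ^ n) * P = p ^ n * (n • N) := by
  induction n with
  | zero => simp
  | succ n ih =>
    have h1 : derivative (p ^ (n + 1)) * P =
        (derivative (p ^ n) * P) * p + p ^ n * (derivative p * P) := by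
      rw [pow_succ, derivative_mul]
      ring
    rw [h1, ih, h, succ_nsmul, pow_succ]
    ring

theorem logder_prod {ι : Type*} (s : Finset ι) (F M : ι → R[X]) (P : R[X])
    (h : ∀ i ∈ s, derivative (F i) * P = F i * M i) :
    derivative (∏ i ∈ s, F i) * P = (∏ i ∈ s, F i) * ∑ i ∈ s, M i := by
  classical
  induction s using Finset.induction_on with
  | empty => simp
  | insert a s ha ih =>
    have h1 : derivative (∏ i ∈ insert a s, F i) * P =
        (derivative (F a) * P) * (∏ i ∈ s, F i) + F a * (derivative (∏ i ∈ s, F i) * P) := by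
      rw [Finset.prod_insert ha, derivative_mul]
      ring
    rw [h1, h a (Finset.mem_insert_self a s), ih (fun i hi => h i (Finset.mem_insert_of_mem hi)),
      Finset.prod_insert ha, Finset.sum_insert ha]
    ring

end logder

/-! ### The explicit computation -/

/-- Coefficient list of the product of the five polynomials. -/
def Pl : List (ZMod 11) := mulL (pl 0) (mulL (pl 1) (mulL (pl 2) (mulL (pl 3) (pl 4))))

/-- Coefficient lists of `p_i' * ∏_{j ≠ i} p_j`. -/
def nl : Fin 5 → List (ZMod 11) :=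
  ![[10, 6, 9, 0, 0, 1, 10, 10, 2, 3, 1, 0], [5, 0, 2, 9, 1, 0, 0, 10, 1, 2, 1, 0],
    [10, 9, 6, 10, 5, 0, 10, 10, 1, 5, 2, 0], [4, 5, 1, 4, 10, 0, 2, 6, 3, 8, 3, 0],
    [9, 10, 9, 10, 0, 10, 8, 5, 5, 0, 4, 0]]

theorem hN_list : ∀ i : Fin 5, mulL (derivL (pl i)) Pl = mulL (pl i) (nl i) := by decide

theorem hN (i : Fin 5) : derivative (ofL (pl i)) * ofL Pl = ofL (pl i) * ofL (nl i) := by
  rw [← ofL_derivL, ← ofL_mulL, ← ofL_mulL, hN_list i]

theorem pl_head_ne : ∀ i : Fin 5, (pl i).getD 0 0 ≠ 0 := by decide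

/-- The `5 × 9` matrix of the first nine coefficients of the `nl i`. -/
def Mmat : Matrix (Fin 5) (Fin 9) (ZMod 11) := fun i k => (nl i).getD k 0

/-- A right inverse certificate. -/
def Cert : Matrix (Fin 9) (Fin 5) (ZMod 11) :=
  !![0, 8, 1, 7, 0; 5, 3, 10, 8, 5; 0, 0, 0, 0, 0; 10, 9, 5, 3, 10; 0, 0, 0, 0, 0;
     6, 0, 2, 10, 5; 0, 0, 0, 0, 0; 2, 10, 6, 7, 2; 0, 0, 0, 0, 0]

theorem Mmat_mul_Cert : Mmat * Cert = 1 := by decide

theorem hind_eleven (c : Fin 5 → ℕ)
    (h : ∃ n : ℤ, ((11 : ℕ) : 𝓞 K) ∣ ((∏ i, e (K := K) i ^ c i : (𝓞 K)ˣ) : 𝓞 K) - n) :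
    ∀ i, 11 ∣ c i := by
  have : Fact (Nat.Prime 11) := ⟨by norm_num⟩
  obtain ⟨n, w, hw⟩ := h
  set F : (ZMod 11)[X] := ∏ i, ofL (pl i) ^ c i with hF
  have h1 : mkB F = mkB (C (n : ZMod 11)) := by
    have h2 := congrArg psi hw
    rw [map_sub, map_mul, map_natCast, map_intCast, Units.coe_prod, map_prod] at h2
    have h11 : ((11 : ℕ) : B) = 0 := by
      have h12 : ((11 : ℕ) : B) = mkB (11 : (ZMod 11)[X]) := by
        have h13 := map_natCast mkB 11
        rw [Nat.cast_ofNat] at h13
        rw [Nat.cast_ofNat]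
        exact h13.symm
      rw [h12, eleven_eq_zero, map_zero]
    rw [h11, zero_mul, sub_eq_zero] at h2
    simp only [Units.val_pow_eq_pow_val, map_pow, coe_e, psi_elt] at h2
    rw [hF, map_prod]
    simp only [map_pow]
    rw [h2]
    simp
  have h3 : X ^ 10 ∣ F - C (n : ZMod 11) :=
    Ideal.mem_span_singleton.mp (Ideal.Quotient.eq.mp h1)
  have h4 : X ^ 9 ∣ derivative F := by
    obtain ⟨g, hg⟩ := h3
    have h41 : derivative F = derivative (F - C (n : ZMod 11)) := by simp
    rw [h41, hg, derivative_mul, derivative_X_pow]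
    exact dvd_add (Dvd.dvd.mul_right (Dvd.dvd.mul_left (dvd_refl _) _) _)
      (Dvd.dvd.mul_right (pow_dvd_pow X (by norm_num)) _)
  have h5 : derivative F * ofL Pl = F * ∑ i, c i • ofL (nl i) := by
    rw [hF]
    exact logder_prod _ _ _ _ (fun i _ => logder_pow (hN i) (c i))
  have h6 : IsCoprime (X ^ 9 : (ZMod 11)[X]) F := by
    apply IsCoprime.pow_left
    rw [irreducible_X.coprime_iff_not_dvd, X_dvd_iff, hF, coeff_zero_eq_eval_zero, eval_prod]
    simp only [eval_pow]
    rw [Finset.prod_eq_zero_iff]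
    rintro ⟨i, -, hi⟩
    refine pow_ne_zero (c i) ?_ hi
    rw [← coeff_zero_eq_eval_zero, coeff_ofL]
    exact pl_head_ne i
  have h7 : X ^ 9 ∣ ∑ i, c i • ofL (nl i) := by
    have h71 : X ^ 9 ∣ (∑ i, c i • ofL (nl i)) * F := by
      rw [mul_comm, ← h5]
      exact Dvd.dvd.mul_right h4 _
    exact h6.dvd_of_dvd_mul_right h71
  have h8 : ∀ k : Fin 9, ∑ i, (c i : ZMod 11) * (nl i).getD k 0 = 0 := by
    intro k
    have h81 := (X_pow_dvd_iff.mp h7) k k.2
    rw [finsetSum_coeff] at h81
    simpa [coeff_ofL] using h81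
  have h9 : Matrix.vecMul (fun i => (c i : ZMod 11)) Mmat = 0 := by
    funext k
    exact h8 k
  have h10 : (fun i => (c i : ZMod 11)) = 0 := by
    have h101 := congrArg (fun v => Matrix.vecMul v Cert) h9
    simpa [Matrix.vecMul_vecMul, Mmat_mul_Cert] using h101
  intro i
  exact (ZMod.natCast_eq_zero_iff (c i) 11).mp (congrFun h10 i)

end Fermat.Agent.S11.KummerElevenCore
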