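import Mathlib
import Fermat.Agent.S11.KummerAbstract
import Fermat.Agent.S11.KummerElevenCore

set_option autoImplicit false

namespace Fermat.Agent.S11.KummerEleven

open NumberField

theorem kummer_eleven {K : Type*} [Field K] [NumberField K] [IsCyclotomicExtension {11} ℚ K]
    (u : (𝓞 K)ˣ) (hu : ∃ n : ℤ, ((11 : ℕ) : 𝓞 K) ∣ (u : 𝓞 K) - n) :
    ∃ v : (𝓞 K)ˣ, u = v ^ 11 :=
  haveI : Fact (Nat.Prime 11) := ⟨by norm_num⟩
  Fermat.Agent.S11.KummerAbstract.kummer_of_independent (p := 11) (by norm_num)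
    (Fermat.Agent.S11.KummerElevenCore.e (K := K))
    Fermat.Agent.S11.KummerElevenCore.hind_eleven u hu

end Fermat.Agent.S11.KummerEleven
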