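import Mathlib

set_option autoImplicit false

namespace Fermat.Agent.S11.PID

open NumberField Polynomial InfinitePlace Nat Real

lemma minkowski_floor_le {K : Type*} [Field K] [NumberField K] [IsCyclotomicExtension {11} ℚ K] :
    ⌊(4 / π) ^ nrComplexPlaces K *
      ((Module.finrank ℚ K)! / (Module.finrank ℚ K) ^ (Module.finrank ℚ K) *
        √|(NumberField.discr K : ℝ)|)⌋₊ ≤ 59 := by
  have h11 : Fact (Nat.Prime 11) := ⟨by norm_num⟩
  rw [IsCyclotomicExtension.Rat.discr_prime 11 K, IsCyclotomicExtension.finrank (n := 11) K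
    (Polynomial.cyclotomic.irreducible_rat (by norm_num)),
    IsCyclotomicExtension.Rat.nrComplexPlaces_eq_totient_div_two 11,
    Nat.totient_prime (by norm_num : Nat.Prime 11)]
  apply Nat.lt_succ_iff.mp
  rw [Nat.floor_lt' (by norm_num)]
  have hfact : ((11 - 1)! : ℝ) = 3628800 := by
    norm_num [Nat.factorial]
  have hsq : √|(((-1) ^ ((11 - 1) / 2) * ((11 : ℕ) : ℤ) ^ (11 - 2) : ℤ) : ℝ)| < 48559 := by
    rw [Real.sqrt_lt' (by norm_num)]
    norm_num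
  have hpi : (4 / π) ^ 5 < (4 / 3.14) ^ 5 := by
    gcongr
    exact pi_gt_d2
  have h5 : (11 - 1) / 2 = 5 := by norm_num
  rw [h5, hfact]
  calc (4 / π) ^ 5 * (3628800 / ((11 - 1 : ℕ) : ℝ) ^ (11 - 1) *
        √|(((-1) ^ 5 * ((11 : ℕ) : ℤ) ^ (11 - 2) : ℤ) : ℝ)|)
      < (4 / 3.14) ^ 5 * (3628800 / ((11 - 1 : ℕ) : ℝ) ^ (11 - 1) * 48559) := by
        gcongr
    _ < ((59 : ℕ).succ : ℝ) := by norm_num

lemma sum_two_pow : ∑ x ∈ Finset.range 11, (2 : ZMod 23) ^ x = 0 := by decide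

lemma alpha_two : (2 : ZMod 23) ^ 4 + 2 ^ 3 - 1 = 0 := by decide

lemma case23 {K : Type*} [Field K] [NumberField K] [IsCyclotomicExtension {11} ℚ K] :
    ∃ P ∈ (Ideal.span {((23 : ℕ) : ℤ)}).primesOver (𝓞 K), Submodule.IsPrincipal P := by
  have h11 : Fact (Nat.Prime 11) := ⟨by norm_num⟩
  have h23p : Fact (Nat.Prime 23) := ⟨by norm_num⟩
  have hζ := IsCyclotomicExtension.zeta_spec 11 ℚ K
  set pb := hζ.integralPowerBasis with hpb
  set ζ : 𝓞 K := hζ.toInteger with hζdef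
  have hgen : pb.gen = ζ := hζ.integralPowerBasis_gen
  have hmin : minpoly ℤ pb.gen = cyclotomic 11 ℤ := by
    rw [hgen, ← RingOfIntegers.minpoly_coe ζ]
    exact (cyclotomic_eq_minpoly hζ (by norm_num)).symm
  have hΦ : 1 + ζ + ζ ^ 2 + ζ ^ 3 + ζ ^ 4 + ζ ^ 5 + ζ ^ 6 + ζ ^ 7 + ζ ^ 8 + ζ ^ 9 + ζ ^ 10 = 0 := by
    have h := minpoly.aeval ℤ pb.gen
    rw [hmin, cyclotomic_prime, hgen] at h
    simpa [Finset.sum_range_succ] using h
  let ev : 𝓞 K →ₐ[ℤ] ZMod 23 := pb.lift (2 : ZMod 23) (by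
    rw [hmin, cyclotomic_prime]
    simp only [map_sum, map_pow, aeval_X]
    exact sum_two_pow)
  have hevζ : ev ζ = 2 := by rw [← hgen]; exact pb.lift_gen _ _
  have h23 : (23 : 𝓞 K) = (ζ ^ 4 + ζ ^ 3 - 1) *
      (1 + 13 * ζ - 4 * ζ ^ 2 - ζ ^ 3 + 12 * ζ ^ 4 + 7 * ζ ^ 5 - 7 * ζ ^ 6 + 9 * ζ ^ 7
        + 17 * ζ ^ 8 - 2 * ζ ^ 9) := by
    linear_combination (-(-24 + 11 * ζ + 17 * ζ ^ 2 - 2 * ζ ^ 3)) * hΦ
  have hz2 : ζ - 2 = (ζ ^ 4 + ζ ^ 3 - 1) *
      (-ζ + ζ ^ 2 - ζ ^ 4 + ζ ^ 6 - ζ ^ 7 - ζ ^ 8 + ζ ^ 9) := by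
    linear_combination (-(2 - 2 * ζ - ζ ^ 2 + ζ ^ 3)) * hΦ
  have hker : RingHom.ker (ev : 𝓞 K →+* ZMod 23) = Ideal.span {ζ ^ 4 + ζ ^ 3 - 1} := by
    apply le_antisymm
    · intro x hx
      rw [RingHom.mem_ker] at hx
      obtain ⟨f, rfl⟩ := pb.exists_eq_aeval' x
      rw [hgen] at hx ⊢
      obtain ⟨g, hg⟩ := X_sub_C_dvd_sub_C_eval (a := (2 : ℤ)) (p := f)
      have hfx : aeval ζ f = (ζ - 2) * aeval ζ g + ((eval 2 f : ℤ) : 𝓞 K) := by
        have := congrArg (aeval ζ) hg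
        simp only [map_sub, map_mul, aeval_X, aeval_C] at this
        have h2 : (algebraMap ℤ (𝓞 K)) 2 = 2 := by simp
        rw [h2] at this
        rw [← this]
        simp
      have hevf : ev (aeval ζ f) = ((eval 2 f : ℤ) : ZMod 23) := by
        rw [hfx, map_add, map_mul, map_sub, hevζ, map_ofNat, sub_self, zero_mul, zero_add,
          map_intCast]
      have hx' : ev (aeval ζ f) = 0 := hx
      rw [hevf, ZMod.intCast_zmod_eq_zero_iff_dvd] at hx'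
      have hx := hx'
      obtain ⟨m, hm⟩ := hx
      rw [hfx, hm]
      refine Ideal.add_mem _ ?_ ?_
      · rw [hz2, mul_assoc]
        exact Ideal.mul_mem_right _ _ (Ideal.subset_span rfl)
      · push_cast
        rw [h23, mul_assoc]
        exact Ideal.mul_mem_right _ _ (Ideal.subset_span rfl)
    · rw [Ideal.span_le]
      intro x hx
      rw [Set.mem_singleton_iff] at hx
      subst hx
      simp only [SetLike.mem_coe, RingHom.mem_ker]
      simp only [AlgHom.coe_toRingHom, map_sub, map_add, map_pow, hevζ, map_one]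
      exact alpha_two
  refine ⟨RingHom.ker (ev : 𝓞 K →+* ZMod 23), ⟨RingHom.ker_isPrime _, ⟨?_⟩⟩, ?_⟩
  · ext n
    rw [Ideal.mem_span_singleton, Ideal.under, Ideal.mem_comap, RingHom.mem_ker]
    simp only [AlgHom.coe_toRingHom, AlgHom.commutes]
    rw [eq_intCast, ZMod.intCast_zmod_eq_zero_iff_dvd]
  · rw [hker]
    exact ⟨⟨_, rfl⟩⟩


lemma pow_order_gt (q n : ℕ) (hn : 0 < n)
    (h : (q : ZMod 11) ^ n = 1 ∧ ∀ m < n, 0 < m → (q : ZMod 11) ^ m ≠ 1) (hq : 59 < q ^ n) :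
    59 < q ^ orderOf (q : ZMod 11) := by
  rw [(orderOf_eq_iff hn).mpr h]
  exact hq

lemma generic_bound (q : ℕ) (hq : q.Prime) (hq59 : q ≤ 59) (h11 : q ≠ 11) (h23 : q ≠ 23) :
    59 < q ^ orderOf (q : ZMod 11) := by
  interval_cases q <;>
    first
    | exact absurd rfl h11
    | exact absurd rfl h23
    | (exfalso; revert hq; norm_num; done)
    | exact pow_order_gt _ 10 (by norm_num) (by decide) (by norm_num)
    | exact pow_order_gt _ 5 (by norm_num) (by decide) (by norm_num)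
    | exact pow_order_gt _ 2 (by norm_num) (by decide) (by norm_num)

theorem pid_eleven {K : Type*} [Field K] [NumberField K] [IsCyclotomicExtension {11} ℚ K] :
    IsPrincipalIdealRing (𝓞 K) := by
  have : IsGalois ℚ K := IsCyclotomicExtension.isGalois {11} ℚ K
  apply RingOfIntegers.isPrincipalIdealRing_of_isPrincipal_of_lt_or_isPrincipal_of_mem_primesOver_of_mem_Icc
  intro p hp hpp
  have hM := minkowski_floor_le (K := K)
  have hp59 : p ≤ 59 := (Finset.mem_Icc.mp hp).2.trans hM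
  by_cases h11 : p = 11
  · subst h11
    have : Fact (Nat.Prime 11) := ⟨by norm_num⟩
    obtain ⟨⟨P, hP1, hP2⟩⟩ := (Ideal.span {((11 : ℕ) : ℤ)}).nonempty_primesOver (S := 𝓞 K)
    refine ⟨P, ⟨hP1, hP2⟩, Or.inr ?_⟩
    rw [IsCyclotomicExtension.Rat.eq_span_zeta_sub_one_of_liesOver' 11 K
      (IsCyclotomicExtension.zeta_spec 11 ℚ K) P]
    exact ⟨⟨_, rfl⟩⟩
  by_cases h23 : p = 23
  · subst h23
    obtain ⟨P, hP, hprinc⟩ := case23 (K := K)
    exact ⟨P, hP, Or.inr hprinc⟩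
  · have : Fact p.Prime := ⟨hpp⟩
    obtain ⟨⟨P, hP1, hP2⟩⟩ := (Ideal.span {(p : ℤ)}).nonempty_primesOver (S := 𝓞 K)
    refine ⟨P, ⟨hP1, hP2⟩, Or.inl ?_⟩
    have hnd : ¬ p ∣ 11 := by
      intro hdvd
      exact h11 ((Nat.prime_dvd_prime_iff_eq hpp (by norm_num)).mp hdvd)
    rw [IsCyclotomicExtension.Rat.inertiaDeg_eq_of_not_dvd p K P hnd]
    exact lt_of_le_of_lt hM (generic_bound p hpp hp59 h11 h23)

end Fermat.Agent.S11.PID
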