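import Mathlib
import Fermat.Agent.S11.Assembly
import Fermat.Agent.S11.PID
import Fermat.Agent.S11.KummerEleven
import Fermat.Agent.S10.SophieGermain

set_option autoImplicit false

namespace Fermat.Agent.S11.FLT11

open NumberField

/-- Fermat's Last Theorem for exponent `11` over the integers. -/
theorem flt_eleven_int : FermatLastTheoremWith ℤ 11 := by
  have : Fact (Nat.Prime 11) := ⟨by norm_num⟩
  have : IsCyclotomicExtension {11} ℚ (CyclotomicField 11 ℚ) :=
    CyclotomicField.isCyclotomicExtension 11 ℚ
  exact Assembly.flt_of_parts (p := 11) (K := CyclotomicField 11 ℚ) (by norm_num)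
    PID.pid_eleven (fun u hu => KummerEleven.kummer_eleven u hu)
    (fun a b c hab h => Fermat.Agent.S10.SophieGermain.caseI_eleven hab h)

end Fermat.Agent.S11.FLT11
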