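import Mathlib

set_option autoImplicit false

namespace Fermat.Agent.S11.SophieGermain

open Finset

/-- The cofactor of `y + z` in `y ^ p + z ^ p`. -/
def cof (p : ℕ) (y z : ℤ) : ℤ := ∑ i ∈ range p, y ^ i * (-z) ^ (p - 1 - i)

theorem cof_mul {p : ℕ} (hp : Odd p) (y z : ℤ) : cof p y z * (y + z) = y ^ p + z ^ p := by
  have h := geom_sum₂_mul y (-z) p
  rw [hp.neg_pow] at h
  rw [cof]
  linear_combination h

theorem dvd_cof_sub {p : ℕ} (y z : ℤ) : (y + z) ∣ cof p y z - p * y ^ (p - 1) := by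
  have h1 : (p : ℤ) * y ^ (p - 1) = ∑ i ∈ range p, y ^ i * y ^ (p - 1 - i) := by
    rw [Finset.sum_congr rfl (fun i hi => ?_), Finset.sum_const, Finset.card_range, nsmul_eq_mul]
    rw [← pow_add]
    congr 1
    have := Finset.mem_range.mp hi
    omega
  rw [h1, cof, ← Finset.sum_sub_distrib]
  refine Finset.dvd_sum fun i _ => ?_
  rw [← mul_sub]
  refine Dvd.dvd.mul_left ?_ _
  have h2 := sub_dvd_pow_sub_pow y (-z) (p - 1 - i)
  rw [sub_neg_eq_add] at h2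
  rw [← dvd_neg, neg_sub]
  exact h2

theorem isCoprime_add_cof {p : ℕ} (hp : p.Prime) {y z : ℤ} (hyz : IsCoprime y z)
    (hpyz : ¬ (p : ℤ) ∣ y + z) : IsCoprime (y + z) (cof p y z) := by
  have hp' : Prime (p : ℤ) := Nat.prime_iff_prime_int.mp hp
  refine isCoprime_of_prime_dvd ?_ fun r hr hr1 hr2 => ?_
  · rintro ⟨h0, -⟩
    exact hpyz (h0 ▸ dvd_zero _)
  · have h3 : r ∣ (p : ℤ) * y ^ (p - 1) := by
      have := (dvd_cof_sub (p := p) y z)
      have h4 : r ∣ cof p y z - p * y ^ (p - 1) := hr1.trans this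
      have := dvd_sub hr2 h4
      simpa using this
    rcases hr.dvd_or_dvd h3 with h5 | h5
    · have : Associated r (p : ℤ) := hr.associated_of_dvd hp' h5
      exact hpyz (this.symm.dvd.trans hr1)
    · have hry : r ∣ y := hr.dvd_of_dvd_pow h5
      have hrz : r ∣ z := by
        have := dvd_sub hr1 hry
        simpa using this
      exact hr.not_isUnit (hyz.isUnit_of_dvd' hry hrz)

theorem exists_pow_eq {p : ℕ} (hp : p.Prime) (hodd : Odd p) {x y z : ℤ} (hyz : IsCoprime y z)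
    (hpx : ¬ (p : ℤ) ∣ x) (h : x ^ p + y ^ p + z ^ p = 0) :
    ∃ A T : ℤ, y + z = A ^ p ∧ cof p y z = T ^ p := by
  have hp' : Prime (p : ℤ) := Nat.prime_iff_prime_int.mp hp
  have hmul : (y + z) * cof p y z = (-x) ^ p := by
    rw [hodd.neg_pow, mul_comm, cof_mul hodd]
    linear_combination h
  have hpyz : ¬ (p : ℤ) ∣ y + z := by
    intro hd
    have h1 : (p : ℤ) ∣ (-x) ^ p := hmul ▸ hd.mul_right _
    exact hpx ((dvd_neg.mp (hp'.dvd_of_dvd_pow h1)))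
  obtain ⟨⟨A, hA⟩, ⟨T, hT⟩⟩ :=
    Int.eq_pow_of_mul_eq_pow_odd (isCoprime_add_cof hp hyz hpyz) hodd hmul
  exact ⟨A, T, hA, hT⟩

theorem core {p q : ℕ} (hp : p.Prime) (hq : q.Prime) (hp2 : p ≠ 2)
    (h1 : ∀ x y z : ZMod q, x ^ p + y ^ p + z ^ p = 0 → x = 0 ∨ y = 0 ∨ z = 0)
    (h2 : ∀ x : ZMod q, x ^ p ≠ (p : ZMod q))
    {x y z : ℤ} (hxy : IsCoprime x y) (hyz : IsCoprime y z) (hzx : IsCoprime z x)
    (hpx : ¬ (p : ℤ) ∣ x) (hpy : ¬ (p : ℤ) ∣ y) (hpz : ¬ (p : ℤ) ∣ z)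
    (h : x ^ p + y ^ p + z ^ p = 0) (hqx : (q : ℤ) ∣ x) : False := by
  have : Fact q.Prime := Fact.mk hq
  have hodd : Odd p := hp.odd_of_ne_two hp2
  have hq' : Prime (q : ℤ) := Nat.prime_iff_prime_int.mp hq
  obtain ⟨A, T, hA, hT⟩ := exists_pow_eq hp hodd hyz hpx h
  obtain ⟨B, -, hB, -⟩ := exists_pow_eq hp hodd hzx hpy (by linear_combination h : y ^ p + z ^ p + x ^ p = 0)
  obtain ⟨C, -, hC, -⟩ := exists_pow_eq hp hodd hxy hpz (by linear_combination h : z ^ p + x ^ p + y ^ p = 0)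
  have hx0 : (x : ZMod q) = 0 := (ZMod.intCast_zmod_eq_zero_iff_dvd x q).mpr hqx
  have hqy : ¬ (q : ℤ) ∣ y := fun hd => hq'.not_isUnit (hxy.isUnit_of_dvd' hqx hd)
  have hqz : ¬ (q : ℤ) ∣ z := fun hd => hq'.not_isUnit (hzx.isUnit_of_dvd' hd hqx)
  have hy0 : (y : ZMod q) ≠ 0 := fun h0 => hqy ((ZMod.intCast_zmod_eq_zero_iff_dvd y q).mp h0)
  have hz0 : (z : ZMod q) ≠ 0 := fun h0 => hqz ((ZMod.intCast_zmod_eq_zero_iff_dvd z q).mp h0)
  have hAq : (A : ZMod q) ^ p = (y : ZMod q) + z := by exact_mod_cast congrArg (Int.cast : ℤ → ZMod q) hA.symm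
  have hBq : (B : ZMod q) ^ p = (z : ZMod q) := by
    have := congrArg (Int.cast : ℤ → ZMod q) hB.symm
    push_cast at this
    rw [this, hx0, add_zero]
  have hCq : (C : ZMod q) ^ p = (y : ZMod q) := by
    have := congrArg (Int.cast : ℤ → ZMod q) hC.symm
    push_cast at this
    rw [this, hx0, zero_add]
  have hsum : (B : ZMod q) ^ p + (C : ZMod q) ^ p + (-(A : ZMod q)) ^ p = 0 := by
    rw [hodd.neg_pow, hAq, hBq, hCq]; ring
  have hB0 : (B : ZMod q) ≠ 0 := by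
    intro h0
    rw [h0, zero_pow hp.ne_zero] at hBq
    exact hz0 hBq.symm
  have hC0 : (C : ZMod q) ≠ 0 := by
    intro h0
    rw [h0, zero_pow hp.ne_zero] at hCq
    exact hy0 hCq.symm
  rcases h1 _ _ _ hsum with h0 | h0 | h0
  · exact hB0 h0
  · exact hC0 h0
  · have hA0 : (A : ZMod q) = 0 := neg_eq_zero.mp h0
    have hyz0 : (y : ZMod q) + z = 0 := by rw [← hAq, hA0, zero_pow hp.ne_zero]
    have hqyz : (q : ℤ) ∣ y + z := by
      rw [← ZMod.intCast_zmod_eq_zero_iff_dvd]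
      push_cast
      exact hyz0
    have hT1 : (q : ℤ) ∣ T ^ p - p * y ^ (p - 1) := by
      rw [← hT]
      exact hqyz.trans (dvd_cof_sub y z)
    have hT2 : (T : ZMod q) ^ p = (p : ZMod q) * (y : ZMod q) ^ (p - 1) := by
      have := (ZMod.intCast_zmod_eq_zero_iff_dvd _ q).mpr hT1
      push_cast at this
      exact sub_eq_zero.mp this
    refine h2 ((T : ZMod q) * ((C : ZMod q) ^ (p - 1))⁻¹) ?_
    have hCne : ((C : ZMod q) ^ (p - 1)) ^ p ≠ 0 := pow_ne_zero _ (pow_ne_zero _ hC0)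
    rw [mul_pow, inv_pow, hT2, ← hCq, ← pow_mul, ← pow_mul, mul_comm p (p - 1)]
    exact mul_inv_cancel_right₀ (by rwa [← pow_mul] at hCne) _

theorem sophie_germain {p q : ℕ} (hp : p.Prime) (hq : q.Prime) (hp2 : p ≠ 2)
    (h1 : ∀ x y z : ZMod q, x ^ p + y ^ p + z ^ p = 0 → x = 0 ∨ y = 0 ∨ z = 0)
    (h2 : ∀ x : ZMod q, x ^ p ≠ (p : ZMod q))
    {a b c : ℤ} (hgcd : Finset.gcd {a, b, c} id = 1) (h : ¬ (p : ℤ) ∣ a * b * c) :
    a ^ p + b ^ p ≠ c ^ p := by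
  intro heq
  have : Fact q.Prime := Fact.mk hq
  have hodd : Odd p := hp.odd_of_ne_two hp2
  have hp' : Prime (p : ℤ) := Nat.prime_iff_prime_int.mp hp
  have hq' : Prime (q : ℤ) := Nat.prime_iff_prime_int.mp hq
  have hpa : ¬ (p : ℤ) ∣ a := fun hd => h ((hd.mul_right b).mul_right c)
  have hpb : ¬ (p : ℤ) ∣ b := fun hd => h ((hd.mul_left a).mul_right c)
  have hpc : ¬ (p : ℤ) ∣ c := fun hd => h (hd.mul_left (a * b))
  have hpc' : ¬ (p : ℤ) ∣ -c := fun hd => hpc (dvd_neg.mp hd)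
  have hF : a ^ p + b ^ p + (-c) ^ p = 0 := by rw [hodd.neg_pow]; linear_combination heq
  -- pairwise coprimality
  have key : ∀ r : ℤ, Prime r → ¬ (r ∣ a ∧ r ∣ b ∧ r ∣ c) := by
    rintro r hr ⟨ha, hb, hc⟩
    have : r ∣ Finset.gcd {a, b, c} id := by
      refine Finset.dvd_gcd fun x hx => ?_
      simp only [Finset.mem_insert, Finset.mem_singleton] at hx
      rcases hx with rfl | rfl | rfl <;> simpa
    rw [hgcd] at this
    exact hr.not_isUnit (isUnit_of_dvd_one this)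
  have hab : IsCoprime a b := by
    refine isCoprime_of_prime_dvd (fun h0 => hpa (h0.1 ▸ dvd_zero _)) fun r hr ha hb => ?_
    refine key r hr ⟨ha, hb, hr.dvd_of_dvd_pow (n := p) ?_⟩
    rw [← heq]
    exact dvd_add (dvd_pow ha hp.ne_zero) (dvd_pow hb hp.ne_zero)
  have hbc : IsCoprime b c := by
    refine isCoprime_of_prime_dvd (fun h0 => hpb (h0.1 ▸ dvd_zero _)) fun r hr hb hc => ?_
    refine key r hr ⟨hr.dvd_of_dvd_pow (n := p) ?_, hb, hc⟩
    have : a ^ p = c ^ p - b ^ p := by linear_combination heq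
    rw [this]
    exact dvd_sub (dvd_pow hc hp.ne_zero) (dvd_pow hb hp.ne_zero)
  have hca : IsCoprime c a := by
    refine isCoprime_of_prime_dvd (fun h0 => hpa (h0.2 ▸ dvd_zero _)) fun r hr hc ha => ?_
    refine key r hr ⟨ha, hr.dvd_of_dvd_pow (n := p) ?_, hc⟩
    have : b ^ p = c ^ p - a ^ p := by linear_combination heq
    rw [this]
    exact dvd_sub (dvd_pow hc hp.ne_zero) (dvd_pow ha hp.ne_zero)
  have hbc' : IsCoprime b (-c) := hbc.neg_right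
  have hca' : IsCoprime (-c) a := hca.neg_left
  -- reduce mod q
  have hmod : (a : ZMod q) ^ p + (b : ZMod q) ^ p + ((-c : ℤ) : ZMod q) ^ p = 0 := by
    have := congrArg (Int.cast : ℤ → ZMod q) hF
    push_cast at this ⊢
    exact this
  rcases h1 _ _ _ hmod with h0 | h0 | h0
  · have hqa : (q : ℤ) ∣ a := (ZMod.intCast_zmod_eq_zero_iff_dvd a q).mp h0
    exact core hp hq hp2 h1 h2 hab hbc' hca' hpa hpb hpc' hF hqa
  · have hqb : (q : ℤ) ∣ b := (ZMod.intCast_zmod_eq_zero_iff_dvd b q).mp h0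
    exact core hp hq hp2 h1 h2 hbc' hca' hab hpb hpc' hpa (by linear_combination hF) hqb
  · have hqc : (q : ℤ) ∣ -c := (ZMod.intCast_zmod_eq_zero_iff_dvd (-c) q).mp h0
    exact core hp hq hp2 h1 h2 hca' hab hbc' hpc' hpa hpb (by linear_combination hF) hqc

theorem h1_of {p q : ℕ} (S : Finset (ZMod q)) (hS : ∀ x : ZMod q, x ≠ 0 → x ^ p ∈ S)
    (hsum : ∀ u ∈ S, ∀ v ∈ S, ∀ w ∈ S, u + v + w ≠ 0) :
    ∀ x y z : ZMod q, x ^ p + y ^ p + z ^ p = 0 → x = 0 ∨ y = 0 ∨ z = 0 := by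
  intro x y z h
  by_contra hne
  rw [not_or, not_or] at hne
  exact hsum _ (hS x hne.1) _ (hS y hne.2.1) _ (hS z hne.2.2) h

theorem caseI_eleven {a b c : ℤ} (hgcd : Finset.gcd {a, b, c} id = 1)
    (h : ¬ (11 : ℤ) ∣ a * b * c) : a ^ 11 + b ^ 11 ≠ c ^ 11 := by
  have hS : ∀ x : ZMod 23, x ≠ 0 → x ^ 11 ∈ ({1, 22} : Finset (ZMod 23)) := by decide
  have hsum : ∀ u ∈ ({1, 22} : Finset (ZMod 23)), ∀ v ∈ ({1, 22} : Finset (ZMod 23)),
      ∀ w ∈ ({1, 22} : Finset (ZMod 23)), u + v + w ≠ 0 := by decide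
  have h2 : ∀ x : ZMod 23, x ^ 11 ≠ ((11 : ℕ) : ZMod 23) := by decide
  exact sophie_germain (p := 11) (q := 23) (by norm_num) (by norm_num) (by norm_num)
    (h1_of _ hS hsum) h2 hgcd (by exact_mod_cast h)

theorem caseI_five {a b c : ℤ} (hgcd : Finset.gcd {a, b, c} id = 1)
    (h : ¬ (5 : ℤ) ∣ a * b * c) : a ^ 5 + b ^ 5 ≠ c ^ 5 := by
  have hS : ∀ x : ZMod 11, x ≠ 0 → x ^ 5 ∈ ({1, 10} : Finset (ZMod 11)) := by decide
  have hsum : ∀ u ∈ ({1, 10} : Finset (ZMod 11)), ∀ v ∈ ({1, 10} : Finset (ZMod 11)),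
      ∀ w ∈ ({1, 10} : Finset (ZMod 11)), u + v + w ≠ 0 := by decide
  have h2 : ∀ x : ZMod 11, x ^ 5 ≠ ((5 : ℕ) : ZMod 11) := by decide
  exact sophie_germain (p := 5) (q := 11) (by norm_num) (by norm_num) (by norm_num)
    (h1_of _ hS hsum) h2 hgcd (by exact_mod_cast h)

theorem caseI_seven {a b c : ℤ} (hgcd : Finset.gcd {a, b, c} id = 1)
    (h : ¬ (7 : ℤ) ∣ a * b * c) : a ^ 7 + b ^ 7 ≠ c ^ 7 := by
  have hS : ∀ x : ZMod 29, x ≠ 0 → x ^ 7 ∈ ({1, 28, 12, 17} : Finset (ZMod 29)) := by decide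
  have hsum : ∀ u ∈ ({1, 28, 12, 17} : Finset (ZMod 29)),
      ∀ v ∈ ({1, 28, 12, 17} : Finset (ZMod 29)),
      ∀ w ∈ ({1, 28, 12, 17} : Finset (ZMod 29)), u + v + w ≠ 0 := by decide
  have h2 : ∀ x : ZMod 29, x ^ 7 ≠ ((7 : ℕ) : ZMod 29) := by decide
  exact sophie_germain (p := 7) (q := 29) (by norm_num) (by norm_num) (by norm_num)
    (h1_of _ hS hsum) h2 hgcd (by exact_mod_cast h)

set_option maxRecDepth 20000 in
theorem caseI_thirteen {a b c : ℤ} (hgcd : Finset.gcd {a, b, c} id = 1)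
    (h : ¬ (13 : ℤ) ∣ a * b * c) : a ^ 13 + b ^ 13 ≠ c ^ 13 := by
  have hS : ∀ x : ZMod 53, x ≠ 0 → x ^ 13 ∈ ({1, 52, 23, 30} : Finset (ZMod 53)) := by decide
  have hsum : ∀ u ∈ ({1, 52, 23, 30} : Finset (ZMod 53)),
      ∀ v ∈ ({1, 52, 23, 30} : Finset (ZMod 53)),
      ∀ w ∈ ({1, 52, 23, 30} : Finset (ZMod 53)), u + v + w ≠ 0 := by decide
  have h2 : ∀ x : ZMod 53, x ^ 13 ≠ ((13 : ℕ) : ZMod 53) := by decide
  exact sophie_germain (p := 13) (q := 53) (by norm_num) (by norm_num) (by norm_num)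
    (h1_of _ hS hsum) h2 hgcd (by exact_mod_cast h)

end Fermat.Agent.S11.SophieGermain
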